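import Mathlib
import Fermat.Agent.LT.T3.M.Spec
import Fermat.Agent.LT.T3.H848.LocValFin

/-!
# Row LT, tower T3, station T3.18M, leaf M.8 `M.LocValFinMC` (registry row 1809; helper250)

OFF-MAIN.  Typed against byte-identical copies of `LT/T3/M/Spec.lean` (helper14, sha256
`bf15afa4…`), `LT/T3/H848/LocValFin.lean` (helper848, `0393d9da…`, the single-place model) and
their closure (closed T3 of `origin/helper14`).

`locValFinMC250 K : Fermat.Agent.LT.T3.M.LocValFinMC K` VERBATIM, UNCONDITIONAL.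

The only new point against the single-place model: `ordv_v α = e v` for `v ∈ P` when
`(a₀) = ∏_{w ∈ P} 𝔭_w^{e w}` (`ordv_of_span_prod250`).
-/

set_option autoImplicit false
set_option linter.style.haveILetI false

open IsDedekindDomain NumberField MeasureTheory
open Fermat.Agent.LT.H556.A0

noncomputable section

namespace Fermat.Agent.LT.T3.M.H250

open Fermat.Agent.LT.T3 Fermat.Agent.LT.T3.AS Fermat.Agent.LT.T3.AS.N893

variable {K : Type} [Field K] [NumberField K]

open Classical in
/-- The multiplicity of `𝔭_v` in `∏_{w ∈ P} 𝔭_w^{e w}`. -/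
theorem count_prod_pow250 (v : HeightOneSpectrum (𝓞 K)) (e : HeightOneSpectrum (𝓞 K) → ℕ)
    (P : Finset (HeightOneSpectrum (𝓞 K))) :
    (Associates.mk v.asIdeal).count (Associates.mk (∏ w ∈ P, w.asIdeal ^ e w)).factors
      = if v ∈ P then e v else 0 := by
  classical
  induction P using Finset.induction_on with
  | empty =>
    rw [Finset.prod_empty, Associates.mk_one, Associates.factors_one, if_neg (Finset.notMem_empty v)]
    exact Associates.count_zero v.associates_irreducible
  | insert w₀ P hw₀ ih =>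
    have h1 : Associates.mk (w₀.asIdeal ^ e w₀) ≠ 0 :=
      Associates.mk_ne_zero.mpr (pow_ne_zero _ w₀.ne_bot)
    have h2 : Associates.mk (∏ w ∈ P, w.asIdeal ^ e w) ≠ 0 := by
      refine Associates.mk_ne_zero.mpr ?_
      exact Finset.prod_ne_zero_iff.mpr fun w _ => pow_ne_zero _ w.ne_bot
    rw [Finset.prod_insert hw₀, Associates.mk_mul_mk.symm,
      Associates.count_mul h1 h2 v.associates_irreducible, ih, Associates.mk_pow,
      Associates.count_pow (Associates.mk_ne_zero.mpr w₀.ne_bot) v.associates_irreducible]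
    by_cases hv : v = w₀
    · subst hv
      rw [Associates.count_self v.associates_irreducible, if_neg hw₀,
        if_pos (Finset.mem_insert_self v P), mul_one, add_zero]
    · have hne : Associates.mk v.asIdeal ≠ Associates.mk w₀.asIdeal := by
        intro h
        apply hv
        have h' : v.asIdeal = w₀.asIdeal := by
          rwa [Associates.mk_eq_mk_iff_associated, associated_iff_eq] at h
        exact HeightOneSpectrum.ext h'
      rw [Associates.count_eq_zero_of_ne v.associates_irreducible w₀.associates_irreducible hne,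
        mul_zero, zero_add]
      by_cases hvP : v ∈ P
      · rw [if_pos hvP, if_pos (Finset.mem_insert_of_mem hvP)]
      · rw [if_neg hvP, if_neg (by simp [hv, hvP])]

/-- `ordv_v a₀ = e v` for `v ∈ P` when `(a₀) = ∏_{w ∈ P} 𝔭_w^{e w}`. -/
theorem ordv_of_span_prod250 (P : Finset (HeightOneSpectrum (𝓞 K)))
    (e : HeightOneSpectrum (𝓞 K) → ℕ) (a₀ : 𝓞 K)
    (h : Ideal.span {a₀} = ∏ w ∈ P, w.asIdeal ^ e w) (v : HeightOneSpectrum (𝓞 K))
    (hv : v ∈ P) :
    ordv v ((algebraMap (𝓞 K) K a₀ : K) : v.adicCompletion K) = e v := by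
  classical
  have ha : a₀ ≠ 0 := by
    intro h0
    rw [h0, Ideal.span_singleton_eq_bot.mpr rfl] at h
    exact (Finset.prod_ne_zero_iff.mpr fun w _ => pow_ne_zero (e w) w.ne_bot) h.symm
  unfold ordv
  rw [HeightOneSpectrum.valuedAdicCompletion_eq_valuation', HeightOneSpectrum.valuation_of_algebraMap,
    HeightOneSpectrum.intValuation_if_neg v ha, WithZero.log_exp, neg_neg, h,
    count_prod_pow250, if_pos hv]

/-- The order of the component at `v ∈ P` of `c₁ αʲ`. -/
theorem ordA_mul_zpowM250 {𝔫 : Ideal (𝓞 K)} {P : Finset (HeightOneSpectrum (𝓞 K))}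
    {e : HeightOneSpectrum (𝓞 K) → ℕ} {a₀ : 𝓞 K} {α : Kˣ} (hF : FrameM K 𝔫 P e a₀ α)
    {v : HeightOneSpectrum (𝓞 K)} (hv : v ∈ P) (c₁ : (Adl K)ˣ) (j : ℤ) :
    ordv v ((finU K v (c₁ * T1.ratUnit K α ^ j) : (v.adicCompletion K)ˣ) :
      v.adicCompletion K) = ordA K v c₁ + j * e v := by
  rw [map_mul, map_zpow, Units.val_mul, Units.val_zpow_eq_zpow_val,
    H848.ordv_mul848 v (Units.ne_zero _) (zpow_ne_zero _ (Units.ne_zero _)), H848.ordv_zpow848]
  have h1 : ((finU K v (T1.ratUnit K α) : (v.adicCompletion K)ˣ) : v.adicCompletion K)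
      = ((algebraMap (𝓞 K) K a₀ : K) : v.adicCompletion K) := by
    rw [← hF.coe]
    rfl
  rw [h1, ordv_of_span_prod250 P e a₀ hF.span v hv]
  rfl

/-- **M.8 = N.6 multi.** -/
theorem locValFinMC250 (K : Type) [Field K] [NumberField K] : LocValFinMC K := by
  intro 𝔫 P e a₀ α hF v hv ν₀ hν₀ f₀ A hbi hRex hSat c₁ c₂ j t
  obtain ⟨R, hR⟩ := hRex
  refine ⟨H848.continuous_f848 v hbi _ _ t, H848.hasCompactSupport_f848 v hR _ _ t, ?_⟩
  letI : MeasurableSpace (v.adicCompletion K) := borel (v.adicCompletion K)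
  haveI : BorelSpace (v.adicCompletion K) := ⟨rfl⟩
  haveI : ν₀.IsAddHaarMeasure := hν₀
  have hq : (0 : ℝ) < (Ideal.absNorm v.asIdeal : ℝ) := by
    have : Ideal.absNorm v.asIdeal ≠ 0 := fun h => v.ne_bot (Ideal.absNorm_eq_zero_iff.mp h)
    exact_mod_cast Nat.pos_of_ne_zero this
  have h1 := integral_add_right_eq_self (μ := ν₀)
    (fun x : v.adicCompletion K =>
      f₀ (upperGL (finU K v (c₁ * T1.ratUnit K α ^ j)) (finU K v c₂) x)) t
  have h2 := hSat ν₀ hν₀ (finU K v (c₁ * T1.ratUnit K α ^ j)) (finU K v c₂)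
  rw [ordA_mul_zpowM250 hF hv c₁ j] at h2
  have h3 : ordv v ((finU K v c₂ : (v.adicCompletion K)ˣ) : v.adicCompletion K)
      = ordA K v c₂ := rfl
  rw [h3] at h2
  rw [h1, h2, H848.rpow_split848 hq]
  push_cast
  ring

/-- Type check against the frozen Prop. -/
example (K : Type) [Field K] [NumberField K] : Fermat.Agent.LT.T3.M.LocValFinMC K :=
  locValFinMC250 K

end Fermat.Agent.LT.T3.M.H250

end
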